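import Mathlib
import Fermat.Prelude.Def_ModularCurve_GenusNumerics

/-!
# Project ES, work packages C2 and C3

Fixed points of `S` and `S * T` on the coset space `SL(2,ℤ) ⧸ Γ₀(N)`.
-/

set_option autoImplicit false

open CongruenceSubgroup ModularCurve
open scoped MatrixGroups

namespace Fermat.Agent.S21.C23

variable (N : ℕ)

/-- The lower-left entry of `h₁⁻¹ * h₂`. -/
lemma inv_mul_apply_one_zero (h₁ h₂ : SL(2, ℤ)) :
    (h₁⁻¹ * h₂) 1 0 = h₁ 0 0 * h₂ 1 0 - h₁ 1 0 * h₂ 0 0 := by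
  simp [Matrix.SpecialLinearGroup.coe_inv, Matrix.adjugate_fin_two, Matrix.mul_apply,
    Fin.sum_univ_two]
  ring

/-- Two cosets of `Γ₀(N)` agree iff the first columns are proportional modulo `N`. -/
lemma mk_eq_mk_iff (h₁ h₂ : SL(2, ℤ)) :
    (QuotientGroup.mk h₁ : SL(2, ℤ) ⧸ Gamma0 N) = QuotientGroup.mk h₂ ↔
      ((h₁ 0 0 : ℤ) : ZMod N) * ((h₂ 1 0 : ℤ) : ZMod N)
        = ((h₁ 1 0 : ℤ) : ZMod N) * ((h₂ 0 0 : ℤ) : ZMod N) := by
  rw [QuotientGroup.eq, Gamma0_mem, inv_mul_apply_one_zero]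
  push_cast
  rw [sub_eq_zero]

/-- The matrix `[[t, -1], [1, 0]]`. -/
def liftMat (t : ℤ) : SL(2, ℤ) :=
  ⟨!![t, -1; 1, 0], by simp [Matrix.det_fin_two]⟩

@[simp] lemma liftMat_zero_zero (t : ℤ) : liftMat t 0 0 = t := rfl
@[simp] lemma liftMat_one_zero (t : ℤ) : liftMat t 1 0 = 1 := rfl

/-- The lower-left entry of an element of `SL(2,ℤ)` whose first column satisfies a monic
quadratic relation modulo `N` is a unit modulo `N`. -/
lemma isUnit_of_quadratic (h : SL(2, ℤ)) (u : ZMod N)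
    (hq : ((h 0 0 : ℤ) : ZMod N) ^ 2 = ((h 1 0 : ℤ) : ZMod N) * u) :
    IsUnit ((h 1 0 : ℤ) : ZMod N) := by
  have hdet : (h 0 0 : ℤ) * h 1 1 - h 0 1 * h 1 0 = 1 := by
    have := h.det_coe
    rw [Matrix.det_fin_two] at this
    exact this
  have hdet' : ((h 0 0 : ℤ) : ZMod N) * ((h 1 1 : ℤ) : ZMod N)
      - ((h 0 1 : ℤ) : ZMod N) * ((h 1 0 : ℤ) : ZMod N) = 1 := by
    have := congrArg (Int.cast : ℤ → ZMod N) hdet
    push_cast at this
    exact this
  set a := ((h 0 0 : ℤ) : ZMod N)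
  set b := ((h 0 1 : ℤ) : ZMod N)
  set c := ((h 1 0 : ℤ) : ZMod N)
  set d := ((h 1 1 : ℤ) : ZMod N)
  refine isUnit_iff_exists_inv.mpr ⟨u * d ^ 2 - 2 * a * b * d + b ^ 2 * c, ?_⟩
  have h1 : (a * d - b * c) ^ 2 = 1 := by rw [hdet']; ring
  calc c * (u * d ^ 2 - 2 * a * b * d + b ^ 2 * c)
      = (c * u) * d ^ 2 - 2 * a * b * c * d + b ^ 2 * c ^ 2 := by ring
    _ = a ^ 2 * d ^ 2 - 2 * a * b * c * d + b ^ 2 * c ^ 2 := by rw [← hq]
    _ = (a * d - b * c) ^ 2 := by ring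
    _ = 1 := h1

/-- Fixed point criterion. -/
lemma smul_mk_eq_iff (g h : SL(2, ℤ)) :
    g • (QuotientGroup.mk h : SL(2, ℤ) ⧸ Gamma0 N) = QuotientGroup.mk h ↔
      ((g 1 0 : ℤ) : ZMod N) * ((h 0 0 : ℤ) : ZMod N) ^ 2
        + (((g 1 1 : ℤ) : ZMod N) - ((g 0 0 : ℤ) : ZMod N)) * ((h 0 0 : ℤ) : ZMod N)
            * ((h 1 0 : ℤ) : ZMod N)
        - ((g 0 1 : ℤ) : ZMod N) * ((h 1 0 : ℤ) : ZMod N) ^ 2 = 0 := by
  rw [MulAction.Quotient.smul_mk, smul_eq_mul, mk_eq_mk_iff]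
  simp only [Matrix.SpecialLinearGroup.coe_mul, Matrix.mul_apply, Fin.sum_univ_two]
  push_cast
  constructor
  · intro H
    linear_combination -H
  · intro H
    linear_combination -H


/-- General count: for `g ∈ SL(2,ℤ)` with lower-left entry `1`, the cosets of `Γ₀(N)` fixed by
`g` are in bijection with the roots modulo `N` of the quadratic
`x² + (g₁₁ - g₀₀) x - g₀₁`. -/
theorem card_fixed (g : SL(2, ℤ)) (hg : g 1 0 = 1) :
    Nat.card {x : SL(2, ℤ) ⧸ Gamma0 N // g • x = x} =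
      Nat.card {x : ZMod N //
        x ^ 2 + (((g 1 1 : ℤ) : ZMod N) - ((g 0 0 : ℤ) : ZMod N)) * x
          - ((g 0 1 : ℤ) : ZMod N) = 0} := by
  symm
  have hg' : ((g 1 0 : ℤ) : ZMod N) = 1 := by rw [hg]; simp
  refine Nat.card_eq_of_bijective
    (fun x => ⟨(QuotientGroup.mk (liftMat (x.1.cast : ℤ)) : SL(2, ℤ) ⧸ Gamma0 N), ?_⟩) ⟨?_, ?_⟩
  · rw [smul_mk_eq_iff, hg', liftMat_zero_zero, liftMat_one_zero, ZMod.intCast_zmod_cast]
    have := x.2
    simp only [Int.cast_one, one_pow, mul_one, one_mul]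
    linear_combination this
  · rintro ⟨x₁, h₁⟩ ⟨x₂, h₂⟩ h
    simp only [Subtype.mk.injEq] at h
    rw [mk_eq_mk_iff] at h
    simp only [liftMat_zero_zero, liftMat_one_zero, ZMod.intCast_zmod_cast, Int.cast_one,
      mul_one, one_mul] at h
    exact Subtype.ext h
  · rintro ⟨y, hy⟩
    obtain ⟨h, rfl⟩ := QuotientGroup.mk_surjective y
    rw [smul_mk_eq_iff, hg'] at hy
    set a := ((h 0 0 : ℤ) : ZMod N) with ha
    set c := ((h 1 0 : ℤ) : ZMod N) with hc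
    set α := ((g 1 1 : ℤ) : ZMod N) - ((g 0 0 : ℤ) : ZMod N) with hα
    set β := ((g 0 1 : ℤ) : ZMod N) with hβ
    have hq : a ^ 2 = c * (β * c - α * a) := by linear_combination hy
    obtain ⟨c', hc'⟩ := isUnit_iff_exists_inv.mp (isUnit_of_quadratic N h _ hq)
    refine ⟨⟨a * c', ?_⟩, ?_⟩
    · linear_combination c' ^ 2 * hy + (β * (1 + c * c') - α * a * c') * hc'
    · simp only [Subtype.mk.injEq]
      rw [mk_eq_mk_iff]
      simp only [liftMat_zero_zero, liftMat_one_zero, ZMod.intCast_zmod_cast, Int.cast_one,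
        one_mul]
      rw [← ha, ← hc]
      linear_combination a * hc'


/-- WP-C2: the number of cosets of `Γ₀(N)` fixed by `S` is `nuTwo N`. -/
theorem fixCount_S_Gamma0 :
    Nat.card {x : SL(2, ℤ) ⧸ Gamma0 N // ModularGroup.S • x = x} = nuTwo N := by
  rw [card_fixed N ModularGroup.S (by simp [ModularGroup.coe_S]), nuTwo]
  refine Nat.card_congr (Equiv.subtypeEquivRight fun x => ?_)
  simp [ModularGroup.coe_S]

/-- WP-C3: the number of cosets of `Γ₀(N)` fixed by `S * T` is `nuThree N`. -/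
theorem fixCount_ST_Gamma0 :
    Nat.card {x : SL(2, ℤ) ⧸ Gamma0 N // (ModularGroup.S * ModularGroup.T) • x = x}
      = nuThree N := by
  rw [card_fixed N (ModularGroup.S * ModularGroup.T)
    (by simp [ModularGroup.coe_S, ModularGroup.coe_T]), nuThree]
  refine Nat.card_congr (Equiv.subtypeEquivRight fun x => ?_)
  simp [ModularGroup.coe_S, ModularGroup.coe_T]

end Fermat.Agent.S21.C23
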